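/-
S55 leaf 15c-PLACE-DICT, part 3 (helper58): **(P3)** every finite place of an ARBITRARY number
field `K ⊆ ℚ̄` above `q` is cut out by the `q`-adic norm through some embedding `σ : K → ℚ̄`
(`orbitHyp K : OrbitHyp K`).  For normal `L` this is Galois transitivity on the primes above `q`;
the general case goes through the normal closure and lying-over.
-/
import Mathlib
import Fermat.Agent.S55.PlaceDict58

open IsDedekindDomain NumberField

namespace Fermat.Agent.S55.PlaceDict58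

section Galois

/-- the embedding `L → ℚ̄` attached to an automorphism `g` of `L` -/
noncomputable def sig (L : IntermediateField ℚ Qb) (g : L ≃ₐ[ℚ] L) : L →ₐ[ℚ] Qb :=
  L.val.comp (g : L →ₐ[ℚ] L)

@[simp] theorem sig_apply (L : IntermediateField ℚ Qb) (g : L ≃ₐ[ℚ] L) (x : L) :
    sig L g x = ((g x : L) : Qb) := rfl

variable (q : ℕ) [Fact q.Prime] (L : IntermediateField ℚ Qb) [NumberField L]

/-- **Galois transitivity**: for `L/ℚ` normal, every prime of `𝓞 L` above `q` is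
`placeOf q L (sig L g)` for some `g ∈ Gal(L/ℚ)`. -/
theorem exists_algEquiv_placeOf_eq [Normal ℚ L] (v : HeightOneSpectrum (𝓞 L))
    (hv : ((q : ℕ) : 𝓞 L) ∈ v.asIdeal) : ∃ g : L ≃ₐ[ℚ] L, placeOf q L (sig L g) = v := by
  have : IsGalois ℚ L := ⟨⟩
  let _ : MulSemiringAction (L ≃ₐ[ℚ] L) (𝓞 L) := IsIntegralClosure.MulSemiringAction ℤ ℚ L (𝓞 L)
  have := IsGaloisGroup.of_isFractionRing (L ≃ₐ[ℚ] L) ℤ (𝓞 L) ℚ L
  have hqp : Prime (q : ℤ) := Nat.prime_iff_prime_int.mp Fact.out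
  set v₀ := placeOf q L (sig L 1) with hv₀
  have h1 : v₀.asIdeal.LiesOver (Ideal.span {(q : ℤ)}) :=
    (Ideal.liesOver_span_iff v₀.isPrime.ne_top hqp).mpr (by
      simpa using natCast_mem_placeOf q L (sig L 1))
  have h2 : v.asIdeal.LiesOver (Ideal.span {(q : ℤ)}) :=
    (Ideal.liesOver_span_iff v.isPrime.ne_top hqp).mpr (by simpa using hv)
  obtain ⟨g, hg⟩ := Algebra.IsInvariant.exists_smul_of_under_eq ℤ (𝓞 L) (L ≃ₐ[ℚ] L)
    v₀.asIdeal v.asIdeal (h1.over.symm.trans h2.over)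
  refine ⟨g⁻¹, ?_⟩
  apply HeightOneSpectrum.ext
  rw [hg]
  apply Ideal.ext
  intro x
  rw [mem_placeOf_iff, Ideal.mem_pointwise_smul_iff_inv_smul_mem, hv₀, mem_placeOf_iff]
  have : ((g⁻¹ • x : 𝓞 L) : L) = g⁻¹ (x : L) := algebraMap_galRestrict_apply ℤ g⁻¹ x
  rw [this]
  rfl

end Galois

section LyingOver

/-- lying-over for rings of integers, in `HeightOneSpectrum` form -/
theorem exists_heightOneSpectrum_comap_eq {K N : Type*} [Field K] [Field N] [NumberField K]
    [NumberField N] [Algebra K N] (v : HeightOneSpectrum (𝓞 K)) :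
    ∃ w : HeightOneSpectrum (𝓞 N), w.asIdeal.comap (algebraMap (𝓞 K) (𝓞 N)) = v.asIdeal := by
  obtain ⟨Q, hQ, hQv⟩ := Ideal.exists_ideal_over_prime_of_isIntegral_of_isDomain (S := 𝓞 N)
    v.asIdeal (by rw [RingOfIntegers.ker_algebraMap_eq_bot]; exact bot_le)
  refine ⟨⟨Q, hQ, ?_⟩, hQv⟩
  rintro rfl
  apply v.ne_bot
  rw [← hQv, ← RingHom.ker_eq_comap_bot, RingOfIntegers.ker_algebraMap_eq_bot]

end LyingOver

section General

/-- the normal closure of `K` inside `ℚ̄` -/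
noncomputable def ncl (K : IntermediateField ℚ Qb) : IntermediateField ℚ Qb :=
  IntermediateField.normalClosure ℚ K Qb

theorem le_ncl (K : IntermediateField ℚ Qb) : K ≤ ncl K := IntermediateField.le_normalClosure K

variable (q : ℕ) [Fact q.Prime] (K : IntermediateField ℚ Qb) [NumberField K]

instance ncl_normal : Normal ℚ (ncl K) :=
  haveI _h1 : Algebra.IsAlgebraic ℚ Qb := AlgebraicClosure.isAlgebraic ℚ
  haveI _h2 : IsAlgClosure ℚ Qb := ⟨inferInstance, inferInstance⟩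
  haveI : Normal ℚ Qb := IsAlgClosure.normal ℚ Qb
  normalClosure.normal ℚ K Qb

instance ncl_finiteDimensional : FiniteDimensional ℚ (ncl K) :=
  normalClosure.is_finiteDimensional ℚ K Qb

instance ncl_numberField : NumberField (ncl K) := numberField_of_finiteDimensional (ncl K)

/-- **(P3)** every prime of `𝓞 K` above `q` is `placeOf q K σ` for some embedding `σ : K → ℚ̄`;
`K` is an arbitrary number field inside `ℚ̄` (not necessarily normal). -/
theorem exists_emb_of_mem (v : HeightOneSpectrum (𝓞 K)) (hv : ((q : ℕ) : 𝓞 K) ∈ v.asIdeal) :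
    ∃ σ : K →ₐ[ℚ] Qb, placeOf q K σ = v := by
  let alg : Algebra K (ncl K) := (IntermediateField.inclusion (le_ncl K)).toRingHom.toAlgebra
  obtain ⟨w, hw⟩ := exists_heightOneSpectrum_comap_eq (K := K) (N := ncl K) v
  have hqw : ((q : ℕ) : 𝓞 (ncl K)) ∈ w.asIdeal := by
    have h1 : ((q : ℕ) : 𝓞 K) ∈ w.asIdeal.comap (algebraMap (𝓞 K) (𝓞 (ncl K))) := by
      rw [hw]; exact hv
    rw [Ideal.mem_comap, map_natCast] at h1
    exact h1
  obtain ⟨g, hg⟩ := exists_algEquiv_placeOf_eq q (ncl K) w hqw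
  refine ⟨(sig (ncl K) g).comp (IntermediateField.inclusion (le_ncl K)), ?_⟩
  apply HeightOneSpectrum.ext
  apply Ideal.ext
  intro x
  rw [← hw, Ideal.mem_comap, ← hg, mem_placeOf_iff, mem_placeOf_iff]
  rfl

/-- **(P3)** in `OrbitHyp` form (unconditional). -/
theorem orbitHyp : OrbitHyp K := fun ℓ _ v hv => exists_emb_of_mem ℓ K v hv

/-- **(P5), unconditional, per prime**: `x` is a unit at every prime of `𝓞 K` above `q` iff
`‖x‖_σ = 1` for every embedding `σ`. -/
theorem forall_valuation_eq_one_iff' (x : K) :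
    (∀ v : HeightOneSpectrum (𝓞 K), ((q : ℕ) : 𝓞 K) ∈ v.asIdeal → v.valuation K x = 1) ↔
      ∀ σ : K →ₐ[ℚ] Qb, nrm q K σ x = 1 :=
  forall_valuation_eq_one_iff K (orbitHyp K) q x

/-- integrality version of the previous statement -/
theorem forall_valuation_le_one_iff' (x : K) :
    (∀ v : HeightOneSpectrum (𝓞 K), ((q : ℕ) : 𝓞 K) ∈ v.asIdeal → v.valuation K x ≤ 1) ↔
      ∀ σ : K →ₐ[ℚ] Qb, nrm q K σ x ≤ 1 := by
  constructor
  · intro h σ
    exact (nrm_le_one_iff q K σ x).2 (h _ (natCast_mem_placeOf q K σ))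
  · intro h v hv
    obtain ⟨σ, rfl⟩ := exists_emb_of_mem q K v hv
    exact (nrm_le_one_iff q K σ x).1 (h σ)

/-- **(P5), unconditional**: S-unit dictionary for an arbitrary number field `K ⊆ ℚ̄`. -/
theorem forall_nrm_eq_one_iff' (S : Finset Nat.Primes) (x : K) :
    (∀ ℓ : Nat.Primes, ℓ ∉ S → ∀ σ : K →ₐ[ℚ] Qb,
        haveI : Fact (ℓ : ℕ).Prime := ⟨ℓ.2⟩; nrm (ℓ : ℕ) K σ x = 1) ↔
      ∀ v : HeightOneSpectrum (𝓞 K), (∀ ℓ ∈ S, ((ℓ : ℕ) : 𝓞 K) ∉ v.asIdeal) →
        v.valuation K x = 1 :=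
  forall_nrm_eq_one_iff K (orbitHyp K) S x

/-- Galois-invariance of the norm on `PadicAlgCl q` -/
theorem norm_algEquiv_padicAlgCl (τ : PadicAlgCl q ≃ₐ[ℚ_[q]] PadicAlgCl q) (y : PadicAlgCl q) :
    ‖τ y‖ = ‖y‖ := by
  rw [← PadicAlgCl.spectralNorm_eq, ← PadicAlgCl.spectralNorm_eq, spectralNorm, spectralNorm,
    minpoly.algEquiv_eq]

omit [NumberField K] in
/-- `G_q`-conjugate embeddings have the same norm -/
theorem nrm_eq_of_conj (σ σ' : K →ₐ[ℚ] Qb) (τ : PadicAlgCl q ≃ₐ[ℚ_[q]] PadicAlgCl q)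
    (h : ∀ x : K, padicEmbedding q (σ' x) = τ (padicEmbedding q (σ x))) (x : K) :
    nrm q K σ' x = nrm q K σ x := by
  rw [nrm_def, nrm_def, emb_apply, emb_apply, h, norm_algEquiv_padicAlgCl]

/-- **(P6 ⇐)** `G_q`-conjugate embeddings cut out the same place -/
theorem placeOf_eq_of_conj (σ σ' : K →ₐ[ℚ] Qb) (τ : PadicAlgCl q ≃ₐ[ℚ_[q]] PadicAlgCl q)
    (h : ∀ x : K, padicEmbedding q (σ' x) = τ (padicEmbedding q (σ x))) :
    placeOf q K σ' = placeOf q K σ := by
  apply HeightOneSpectrum.ext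
  apply Ideal.ext
  intro x
  rw [mem_placeOf_iff, mem_placeOf_iff, nrm_eq_of_conj q K σ σ' τ h]

/-- places cut out by the same norm function coincide (and conversely) -/
theorem placeOf_eq_iff (σ σ' : K →ₐ[ℚ] Qb) :
    placeOf q K σ = placeOf q K σ' ↔ ∀ x : K, nrm q K σ x ≤ 1 ↔ nrm q K σ' x ≤ 1 := by
  constructor
  · intro h x
    rw [nrm_le_one_iff, nrm_le_one_iff, h]
  · intro h
    apply HeightOneSpectrum.ext
    apply Ideal.ext
    intro x
    rw [mem_placeOf_iff, mem_placeOf_iff]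
    by_cases hx : (x : K) = 0
    · rw [hx, nrm_zero, nrm_zero]
    · have h1 := h (x : K)⁻¹
      rw [nrm_inv, nrm_inv, inv_le_one_iff₀, inv_le_one_iff₀] at h1
      have hpos : 0 < nrm q K σ (x : K) := nrm_pos q K σ hx
      have hpos' : 0 < nrm q K σ' (x : K) := nrm_pos q K σ' hx
      constructor
      · intro hlt
        by_contra hcon
        have : 1 ≤ nrm q K σ (x : K) := (h1.2 (Or.inr (not_lt.1 hcon))).resolve_left
          (fun h0 => absurd h0 (not_le.2 hpos))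
        exact absurd hlt (not_lt.2 this)
      · intro hlt
        by_contra hcon
        have : 1 ≤ nrm q K σ' (x : K) := (h1.1 (Or.inr (not_lt.1 hcon))).resolve_left
          (fun h0 => absurd h0 (not_le.2 hpos'))
        exact absurd hlt (not_lt.2 this)

end General

end Fermat.Agent.S55.PlaceDict58
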